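/-
S26 / S2 / A (S2-A) : the canonical section of `O(-V)`: base change of its image ideal, vanishing
criterion.  Statements = `S2/Core.lean`, section A (verbatim).
-/
import Fermat.Agent.S26.Curve.Pts

set_option autoImplicit false
set_option linter.unusedSectionVars false

open scoped TensorProduct

universe u

namespace Fermat.Agent.S26

variable {K : Type u} [Field K] [IsAlgClosed K] {𝔸 : AVF K} {g : ℕ}

/-! ### S2-A : the canonical section of `O(-V)` -/

section A

variable {G : Geo 𝔸 g} {P : Ideal G.R₀} (D : CartDiv G P)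

theorem CartDiv.range_can_map {S S' : Type u} [CommRing S] [Algebra K S] [CommRing S'] [Algebra K S']
    (φ : S →ₐ[K] S') (u : 𝔸.pt S) :
    LinearMap.range (D.can (𝔸.map φ u)) = Ideal.map φ (LinearMap.range (D.can u)) := by
  apply le_antisymm
  · rintro _ ⟨m', rfl⟩
    have hm' : m' ∈ Submodule.span S' (Set.range (D.L.bc φ (rfl : 𝔸.map φ u = 𝔸.map φ u))) := by
      rw [D.L.bc_span]; exact Submodule.mem_top
    induction hm' using Submodule.span_induction with
    | mem x hx =>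
      obtain ⟨m, rfl⟩ := hx
      rw [D.can_bc]
      exact Ideal.mem_map_of_mem φ ⟨m, rfl⟩
    | zero => rw [map_zero]; exact Submodule.zero_mem _
    | add a b _ _ ha hb => rw [map_add]; exact Submodule.add_mem _ ha hb
    | smul s a _ ha => rw [map_smul]; exact Submodule.smul_mem _ s ha
  · rw [Ideal.map_le_iff_le_comap]
    rintro _ ⟨m, rfl⟩
    exact ⟨D.L.bc φ rfl m, D.can_bc φ rfl m⟩

theorem CartDiv.can_eq_zero_iff {T : Type u} [CommRing T] [Algebra K T] (w : G.R₀ →ₐ[K] T)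
    (a : 𝔸.pt K) : D.can (𝔸.map w G.ι₀ + 𝔸.cst T a) = 0 ↔ D.Pa a ≤ RingHom.ker w := by
  rw [← LinearMap.range_eq_bot, D.range_can a w]
  exact Ideal.map_eq_bot_iff_le_ker w

theorem CartDiv.can_ηV {T : Type u} [CommRing T] [Algebra K T] (i : G.kV P →ₐ[K] T) :
    D.can (𝔸.map i (G.ηV P)) = 0 := by
  have e : 𝔸.map i (G.ηV P) = 𝔸.map (i.comp (G.toKV P)) G.ι₀ + 𝔸.cst T 0 := by
    rw [AVF.cst, 𝔸.map_zero, add_zero, 𝔸.map_comp]
    rfl
  rw [e, D.can_eq_zero_iff, D.Pa_zero]
  intro x hx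
  rw [RingHom.mem_ker]
  show i (algebraMap (G.R₀ ⧸ P) (G.kV P) (Ideal.Quotient.mk P x)) = 0
  rw [Ideal.Quotient.eq_zero_iff_mem.mpr hx, map_zero, map_zero]

theorem CartDiv.can_map_eq_zero {S S' : Type u} [CommRing S] [Algebra K S] [CommRing S']
    [Algebra K S'] (φ : S →ₐ[K] S') (u : 𝔸.pt S)
    (h : LinearMap.range (D.can u) ≤ RingHom.ker φ) : D.can (𝔸.map φ u) = 0 := by
  rw [← LinearMap.range_eq_bot, D.range_can_map]
  exact (Ideal.map_eq_bot_iff_le_ker φ).mpr h

end A

end Fermat.Agent.S26
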