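/-
S26 / S2 / CoreProof (S2-C) : the scheme `{s : η - f(s) ∈ V}` is empty or one reduced point with
residue field `Φ`.  Statement = `S2/Core.lean`, section C.
The key lemma `s2_local` enters as the hypothesis `hloc` (`CoreProofLocal`).  `CoreProof_main` is
sorry-free.  WIRING (tested against a stub of `s2_local`), with the verbatim header of `s2_core`:
  theorem s2_core ... :=
    CoreProof_main htr hfrac htrF hΦ
      (fun T _ _ _ jT sT hcan => s2_local G P htr D b hb hfrac htrF fB Φ i₁ i₂ hΦ T jT sT hcan) I hI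
Remark: no Nakayama is needed: `S ⧸ I` itself is a local ring, so (0) applies to it directly.
-/
import Fermat.Agent.S26.AV.DG2
import Fermat.Agent.S26.Alg.FreeComp
import Fermat.Agent.S26.Curve.Coh
import Fermat.Agent.S26.Curve.Fam
import Fermat.Agent.S26.S2.A

set_option autoImplicit false
set_option linter.unusedSectionVars false

open scoped TensorProduct

universe u

namespace Fermat.Agent.S26

/-! ### field theory -/

section Fields

variable {K : Type u} [Field K]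

/-- an extension of fields of the same finite transcendence degree is algebraic -/
theorem CoreProof_isAlgebraic {E Φ : Type u} [Field E] [Algebra K E] [Field Φ] [Algebra K Φ]
    (j₀ : E →ₐ[K] Φ) (g : ℕ) (hE : Algebra.trdeg K E = g) (hΦ : Algebra.trdeg K Φ ≤ g) :
    @Algebra.IsAlgebraic E Φ _ _ j₀.toRingHom.toAlgebra := by
  let := j₀.toRingHom.toAlgebra
  have : IsScalarTower K E Φ := IsScalarTower.of_algebraMap_eq (fun x => (j₀.commutes x).symm)
  have h1 := trdeg_add_eq K E (A := Φ)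
  rw [hE] at h1
  rw [← trdeg_eq_zero_iff]
  by_contra hne
  have h2 : 1 ≤ Algebra.trdeg E Φ := Cardinal.one_le_iff_ne_zero.2 hne
  have h3 : (g : Cardinal) + 1 ≤ g := (add_le_add_right h2 _).trans (h1.le.trans hΦ)
  have h4 : ((g + 1 : ℕ) : Cardinal) ≤ (g : ℕ) := by
    push_cast
    exact h3
  have h5 : g + 1 ≤ g := Nat.cast_le.1 h4
  omega

/-- the image of a ring in an algebraic extension of a field it contains is a field -/
theorem CoreProof_inv_mem {E S Φ : Type u} [Field E] [Algebra K E] [CommRing S] [Algebra K S]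
    [Field Φ] [Algebra K Φ] (j₀ : E →ₐ[K] Φ)
    (halg : @Algebra.IsAlgebraic E Φ _ _ j₀.toRingHom.toAlgebra)
    (ψ₀ : S →ₐ[K] Φ) (hr : ∀ x, j₀ x ∈ ψ₀.range) (x : Φ) (hx : x ∈ ψ₀.range) :
    x⁻¹ ∈ ψ₀.range := by
  let := j₀.toRingHom.toAlgebra
  let A : Subalgebra E Φ :=
    { ψ₀.range.toSubsemiring with algebraMap_mem' := fun r => hr r }
  exact A.inv_mem_of_algebraic (x := ⟨x, hx⟩) (halg.isAlgebraic x)

/-- an intermediate field containing the images of rings of which `F`, `L` are the fraction fields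
contains the compositum -/
theorem CoreProof_eq_top {F L Φ : Type u} [Field F] [Algebra K F] [Field L] [Algebra K L]
    [Field Φ] [Algebra K Φ] {i₁ : F →ₐ[K] Φ} {i₂ : L →ₐ[K] Φ} (hΦ : IsFreeComp i₁ i₂)
    (T : IntermediateField K Φ) (h₁ : ∀ x, i₁ x ∈ T) (h₂ : ∀ x, i₂ x ∈ T) (z : Φ) : z ∈ T := by
  have hpm : ∀ t : F ⊗[K] L, Algebra.TensorProduct.productMap i₁ i₂ t ∈ T := by
    intro t
    induction t using TensorProduct.induction_on with
    | zero => rw [map_zero]; exact T.zero_mem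
    | tmul x y =>
      rw [Algebra.TensorProduct.productMap_apply_tmul]
      exact T.mul_mem (h₁ x) (h₂ y)
    | add x y hx hy => rw [map_add]; exact T.add_mem hx hy
  obtain ⟨b, c, hc, hz⟩ := hΦ.gen z
  rw [← eq_div_iff hc] at hz
  rw [hz]
  exact T.div_mem (hpm b) (hpm c)

theorem CoreProof_ker_mk {S : Type u} [CommRing S] [Algebra K S] (I : Ideal S) :
    RingHom.ker (Ideal.Quotient.mkₐ K I) = I := by
  ext x
  rw [RingHom.mem_ker]
  exact Ideal.Quotient.eq_zero_iff_mem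

end Fields

variable {K : Type u} [Field K] [IsAlgClosed K] {𝔸 : AVF K} {g : ℕ}

section B

variable (G : Geo 𝔸 g) (P : Ideal G.R₀) [P.IsPrime] (htr : Algebra.trdeg K (G.R₀ ⧸ P) + 1 = g)
  (D : CartDiv G P)
  {B F : Type u} [CommRing B] [IsDomain B] [Algebra K B] [Field F] [Algebra K F]
  (b : B →ₐ[K] F) (hb : Function.Injective b)
  (hfrac : ∀ z : F, ∃ x y : B, b y ≠ 0 ∧ z * b y = b x) (htrF : Algebra.trdeg K F ≤ 1)
  (fB : 𝔸.pt B)

/-- the conclusion of the key lemma `s2_local` -/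
def CoreProofLocal (Φ : Type u) [Field Φ] [Algebra K Φ] (i₁ : F →ₐ[K] Φ)
    (i₂ : G.kV P →ₐ[K] Φ) : Prop :=
  ∀ (T : Type u) [CommRing T] [IsLocalRing T] [Algebra K T]
    (jT : G.FF →ₐ[K] T) (sT : B →ₐ[K] T)
    (_ : D.can (𝔸.map jT G.η - 𝔸.map sT fB) = 0),
    ∃ (j₀ : G.FF →ₐ[K] Φ) (ρ : Φ →ₐ[K] T),
      𝔸.map j₀ G.η = 𝔸.map (i₁.comp b) fB + 𝔸.map i₂ (G.ηV P) ∧
      ρ.comp j₀ = jT ∧ ρ.comp (i₁.comp b) = sT

variable {G P D b fB}

/-- (0) every map from the zero scheme to a local ring factors through `Φ` -/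
theorem CoreProof_factor {Φ : Type u} [Field Φ] [Algebra K Φ] {i₁ : F →ₐ[K] Φ}
    {i₂ : G.kV P →ₐ[K] Φ} (hloc : CoreProofLocal G P D b fB Φ i₁ i₂) {I : Ideal (G.FF ⊗[K] B)}
    (hI : I = LinearMap.range (D.can
      (𝔸.map (Algebra.TensorProduct.includeLeft : G.FF →ₐ[K] G.FF ⊗[K] B) G.η -
        𝔸.map (Algebra.TensorProduct.includeRight : B →ₐ[K] G.FF ⊗[K] B) fB)))
    (T : Type u) [CommRing T] [IsLocalRing T] [Algebra K T] (ψ : G.FF ⊗[K] B →ₐ[K] T)
    (hψ : I ≤ RingHom.ker ψ) :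
    ∃ (j₀ : G.FF →ₐ[K] Φ) (ρ : Φ →ₐ[K] T),
      𝔸.map j₀ G.η = 𝔸.map (i₁.comp b) fB + 𝔸.map i₂ (G.ηV P) ∧
      ψ = ρ.comp (Algebra.TensorProduct.productMap j₀ (i₁.comp b)) := by
  have hcan := D.can_map_eq_zero ψ _ (hI ▸ hψ)
  rw [𝔸.map_sub, ← 𝔸.map_comp, ← 𝔸.map_comp] at hcan
  obtain ⟨j₀, ρ, h1, h2, h3⟩ := hloc T _ _ hcan
  refine ⟨j₀, ρ, h1, ?_⟩
  apply Algebra.TensorProduct.ext'
  intro x y
  have e : x ⊗ₜ[K] y = (Algebra.TensorProduct.includeLeft : G.FF →ₐ[K] G.FF ⊗[K] B) x *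
      (Algebra.TensorProduct.includeRight : B →ₐ[K] G.FF ⊗[K] B) y := by
    rw [Algebra.TensorProduct.includeLeft_apply, Algebra.TensorProduct.includeRight_apply,
      Algebra.TensorProduct.tmul_mul_tmul, mul_one, one_mul]
  rw [AlgHom.comp_apply, Algebra.TensorProduct.productMap_apply_tmul, map_mul, e, map_mul,
    ← AlgHom.comp_apply ψ, ← AlgHom.comp_apply ψ, ← h2, ← h3]
  rfl

/-- (a) the point `ψ₀` lies on the zero scheme -/
theorem CoreProof_le_ker {Φ : Type u} [Field Φ] [Algebra K Φ] {i₁ : F →ₐ[K] Φ}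
    {i₂ : G.kV P →ₐ[K] Φ} {I : Ideal (G.FF ⊗[K] B)}
    (hI : I = LinearMap.range (D.can
      (𝔸.map (Algebra.TensorProduct.includeLeft : G.FF →ₐ[K] G.FF ⊗[K] B) G.η -
        𝔸.map (Algebra.TensorProduct.includeRight : B →ₐ[K] G.FF ⊗[K] B) fB)))
    (j₀ : G.FF →ₐ[K] Φ)
    (hj₀ : 𝔸.map j₀ G.η = 𝔸.map (i₁.comp b) fB + 𝔸.map i₂ (G.ηV P)) :
    I ≤ RingHom.ker (Algebra.TensorProduct.productMap j₀ (i₁.comp b)) := by
  have e : 𝔸.map (Algebra.TensorProduct.productMap j₀ (i₁.comp b))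
      (𝔸.map (Algebra.TensorProduct.includeLeft : G.FF →ₐ[K] G.FF ⊗[K] B) G.η -
        𝔸.map (Algebra.TensorProduct.includeRight : B →ₐ[K] G.FF ⊗[K] B) fB) =
      𝔸.map i₂ (G.ηV P) := by
    rw [𝔸.map_sub, ← 𝔸.map_comp, ← 𝔸.map_comp, Algebra.TensorProduct.productMap_left,
      Algebra.TensorProduct.productMap_right, hj₀, add_sub_cancel_left]
  have h1 := D.range_can_map (Algebra.TensorProduct.productMap j₀ (i₁.comp b))
    (𝔸.map (Algebra.TensorProduct.includeLeft : G.FF →ₐ[K] G.FF ⊗[K] B) G.η -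
        𝔸.map (Algebra.TensorProduct.includeRight : B →ₐ[K] G.FF ⊗[K] B) fB)
  rw [e, D.can_ηV i₂, LinearMap.range_zero, ← hI] at h1
  exact (Ideal.map_eq_bot_iff_le_ker _).1 h1.symm

include htr hfrac htrF in
/-- (b) `ψ₀` is surjective -/
theorem CoreProof_surjective {Φ : Type u} [Field Φ] [Algebra K Φ] {i₁ : F →ₐ[K] Φ}
    {i₂ : G.kV P →ₐ[K] Φ} (hΦ : IsFreeComp i₁ i₂) (j₀ : G.FF →ₐ[K] Φ)
    (hj₀ : 𝔸.map j₀ G.η = 𝔸.map (i₁.comp b) fB + 𝔸.map i₂ (G.ηV P)) :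
    Function.Surjective (Algebra.TensorProduct.productMap j₀ (i₁.comp b)) := by
  set ψ₀ := Algebra.TensorProduct.productMap j₀ (i₁.comp b) with hψ₀
  have htrΦ : Algebra.trdeg K Φ ≤ g := by
    refine hΦ.trdeg_le.trans ?_
    rw [trdeg_eq_of_isFractionRing K (G.R₀ ⧸ P) (G.kV P), ← htr, add_comm]
    exact add_le_add_right htrF _
  have halg := CoreProof_isAlgebraic j₀ g G.trdeg_FF htrΦ
  have hr : ∀ x, j₀ x ∈ ψ₀.range := fun x =>
    ⟨x ⊗ₜ 1, by rw [hψ₀]; exact Algebra.TensorProduct.productMap_left_apply _ _ x⟩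
  let T : IntermediateField K Φ := ψ₀.range.toIntermediateField (CoreProof_inv_mem j₀ halg ψ₀ hr)
  have hT : ∀ t, ψ₀ t ∈ T := fun t => ⟨t, rfl⟩
  let ψr : G.FF ⊗[K] B →ₐ[K] T := ψ₀.codRestrict T.toSubalgebra hT
  have hval : T.val.comp ψr = ψ₀ := AlgHom.ext fun _ => rfl
  -- `T` contains `i₁ F`
  have h₁ : ∀ x, i₁ x ∈ T := by
    intro z
    obtain ⟨x, y, hy, hz⟩ := hfrac z
    have hB : ∀ x : B, i₁ (b x) ∈ T := fun x => by
      have := hT (1 ⊗ₜ x)
      rwa [hψ₀, Algebra.TensorProduct.productMap_right_apply] at this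
    rw [← eq_div_iff hy] at hz
    rw [hz, map_div₀]
    exact T.div_mem (hB x) (hB y)
  -- `T` contains `i₂ (kV P)`
  have h₂ : ∀ x, i₂ x ∈ T := by
    have e : 𝔸.map T.val (𝔸.map ψr
        (𝔸.map (Algebra.TensorProduct.includeLeft : G.FF →ₐ[K] G.FF ⊗[K] B) G.η -
        𝔸.map (Algebra.TensorProduct.includeRight : B →ₐ[K] G.FF ⊗[K] B) fB)) =
        𝔸.map (i₂.comp (G.toKV P)) G.ι₀ := by
      rw [← 𝔸.map_comp, hval, 𝔸.map_sub, ← 𝔸.map_comp, ← 𝔸.map_comp, hψ₀,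
        Algebra.TensorProduct.productMap_left,
        Algebra.TensorProduct.productMap_right, hj₀, add_sub_cancel_left, 𝔸.map_comp]
      rfl
    obtain ⟨w, -, hw⟩ := G.descend_chart T.val _ _ e
    have hR : ∀ r, i₂ (G.toKV P r) ∈ T := fun r => by
      rw [← AlgHom.comp_apply, ← hw]
      exact (w r).2
    intro z
    obtain ⟨x, y, -, rfl⟩ := IsFractionRing.div_surjective (A := G.R₀ ⧸ P) z
    obtain ⟨x, rfl⟩ := Ideal.Quotient.mk_surjective x
    obtain ⟨y, rfl⟩ := Ideal.Quotient.mk_surjective y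
    rw [map_div₀]
    exact T.div_mem (hR x) (hR y)
  intro z
  exact CoreProof_eq_top hΦ T h₁ h₂ z

include htr hfrac htrF in
/-- `s2_core`, with the key lemma `s2_local` as a hypothesis -/
theorem CoreProof_main {Φ : Type u} [Field Φ] [Algebra K Φ] {i₁ : F →ₐ[K] Φ}
    {i₂ : G.kV P →ₐ[K] Φ} (hΦ : IsFreeComp i₁ i₂) (hloc : CoreProofLocal G P D b fB Φ i₁ i₂)
    (I : Ideal (G.FF ⊗[K] B))
    (hI : I = LinearMap.range (D.can
      (𝔸.map (Algebra.TensorProduct.includeLeft : G.FF →ₐ[K] G.FF ⊗[K] B) G.η -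
        𝔸.map (Algebra.TensorProduct.includeRight : B →ₐ[K] G.FF ⊗[K] B) fB))) :
    (I = ⊤ ∨ I.IsMaximal) ∧
      Module.finrank G.FF ((G.FF ⊗[K] B) ⧸ I) =
        G.deg (𝔸.map (i₁.comp b) fB + 𝔸.map i₂ (G.ηV P)) := by
  by_cases hgen : G.dg2IsGen (𝔸.map (i₁.comp b) fB + 𝔸.map i₂ (G.ηV P))
  · obtain ⟨j₀, hj₀⟩ := hgen
    set ψ₀ := Algebra.TensorProduct.productMap j₀ (i₁.comp b) with hψ₀
    have hsurj : Function.Surjective ψ₀ := CoreProof_surjective htr hfrac htrF hΦ j₀ hj₀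
    have hIle : I ≤ RingHom.ker ψ₀ := CoreProof_le_ker hI j₀ hj₀
    have hmax : (RingHom.ker ψ₀).IsMaximal := RingHom.ker_isMaximal_of_surjective ψ₀ hsurj
    -- every map from the zero scheme to a local ring kills `ker ψ₀`
    have hkill : ∀ (T : Type u) [CommRing T] [IsLocalRing T] [Algebra K T]
        (ψ : G.FF ⊗[K] B →ₐ[K] T), I ≤ RingHom.ker ψ → RingHom.ker ψ₀ ≤ RingHom.ker ψ := by
      intro T _ _ _ ψ hψ
      obtain ⟨j₀', ρ, h1, h2⟩ := CoreProof_factor hloc hI T ψ hψ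
      have h3 : j₀' = j₀ := G.η_ext _ _ (h1.trans hj₀.symm)
      rw [h3] at h2
      intro x hx
      rw [RingHom.mem_ker] at hx ⊢
      rw [h2, AlgHom.comp_apply, ← hψ₀, hx, map_zero]
    have huniq : ∀ 𝔐 : Ideal (G.FF ⊗[K] B), 𝔐.IsMaximal → I ≤ 𝔐 → 𝔐 = RingHom.ker ψ₀ := by
      intro 𝔐 h𝔐 hle
      let _ := Ideal.Quotient.field 𝔐
      have h1 := hkill ((G.FF ⊗[K] B) ⧸ 𝔐) (Ideal.Quotient.mkₐ K 𝔐)
        (by rw [CoreProof_ker_mk]; exact hle)
      rw [CoreProof_ker_mk] at h1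
      exact (hmax.eq_of_le h𝔐.ne_top h1).symm
    have hnt : Nontrivial ((G.FF ⊗[K] B) ⧸ I) :=
      Ideal.Quotient.nontrivial_iff.2 (ne_top_of_le_ne_top hmax.ne_top hIle)
    have hlocal : IsLocalRing ((G.FF ⊗[K] B) ⧸ I) := by
      obtain ⟨M, hM⟩ := Ideal.exists_maximal ((G.FF ⊗[K] B) ⧸ I)
      have key : ∀ M' : Ideal ((G.FF ⊗[K] B) ⧸ I), M'.IsMaximal →
          M' = Ideal.map (Ideal.Quotient.mk I) (RingHom.ker ψ₀) := by
        intro M' hM'
        have h1 : (M'.comap (Ideal.Quotient.mk I)).IsMaximal :=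
          Ideal.comap_isMaximal_of_surjective _ Ideal.Quotient.mk_surjective
        have h2 : I ≤ M'.comap (Ideal.Quotient.mk I) := fun x hx => by
          rw [Ideal.mem_comap, Ideal.Quotient.eq_zero_iff_mem.2 hx]
          exact M'.zero_mem
        rw [← huniq _ h1 h2, Ideal.map_comap_of_surjective _ Ideal.Quotient.mk_surjective]
      have hex : ∃! M : Ideal ((G.FF ⊗[K] B) ⧸ I), M.IsMaximal :=
        ⟨M, hM, fun M' hM' => (key M' hM').trans (key M hM).symm⟩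
      exact IsLocalRing.of_unique_max_ideal (R := (G.FF ⊗[K] B) ⧸ I) hex
    have hle : RingHom.ker ψ₀ ≤ I := by
      have h1 := hkill ((G.FF ⊗[K] B) ⧸ I) (Ideal.Quotient.mkₐ K I)
        (by rw [CoreProof_ker_mk])
      rwa [CoreProof_ker_mk] at h1
    have hIeq : I = RingHom.ker ψ₀ := le_antisymm hIle hle
    refine ⟨Or.inr (hIeq ▸ hmax), ?_⟩
    rw [← hj₀, G.deg_eq, dg2_finrank_fieldRange]
    let _ := j₀.toRingHom.toAlgebra
    have : IsScalarTower K G.FF Φ := IsScalarTower.of_algebraMap_eq (fun x => (j₀.commutes x).symm)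
    let ψ' : G.FF ⊗[K] B →ₐ[G.FF] Φ :=
      Algebra.TensorProduct.productLeftAlgHom (Algebra.ofId G.FF Φ) (i₁.comp b)
    have hψ' : ∀ t, ψ' t = ψ₀ t := by
      intro t
      induction t using TensorProduct.induction_on with
      | zero => rw [map_zero, map_zero]
      | tmul x y => rfl
      | add x y hx hy => rw [map_add, map_add, hx, hy]
    have hker : I = RingHom.ker ψ' := by
      rw [hIeq]
      ext t
      rw [RingHom.mem_ker, RingHom.mem_ker, hψ']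
    have hsurj' : Function.Surjective ψ' := fun z => by
      obtain ⟨t, ht⟩ := hsurj z
      exact ⟨t, (hψ' t).trans ht⟩
    rw [hker]
    exact (Ideal.quotientKerAlgEquivOfSurjective hsurj').toLinearEquiv.finrank_eq
  · have htop : I = ⊤ := by
      by_contra hne
      obtain ⟨𝔐, h𝔐, hle⟩ := Ideal.exists_le_maximal I hne
      let _ := Ideal.Quotient.field 𝔐
      obtain ⟨j₀, -, h1, -⟩ := CoreProof_factor hloc hI ((G.FF ⊗[K] B) ⧸ 𝔐)
        (Ideal.Quotient.mkₐ K 𝔐) (by rw [CoreProof_ker_mk]; exact hle)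
      exact hgen ⟨j₀, h1⟩
    refine ⟨Or.inl htop, ?_⟩
    rw [G.dg2_deg_of_not_isGen hgen, htop]
    have : Subsingleton ((G.FF ⊗[K] B) ⧸ (⊤ : Ideal (G.FF ⊗[K] B))) :=
      Ideal.Quotient.subsingleton_iff.2 rfl
    exact Module.finrank_zero_of_subsingleton

end B

end Fermat.Agent.S26
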