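/-
S26 / S2 / Count : (B1) the transcendence degree count of block S2.
-/
import Fermat.Agent.S26.AV.DG2
import Fermat.Agent.S26.Alg.FreeComp

set_option autoImplicit false
set_option linter.unusedSectionVars false

open scoped TensorProduct

universe u

namespace Fermat.Agent.S26

variable {K : Type u} [Field K] [IsAlgClosed K] {𝔸 : AVF K} {g : ℕ}

omit [IsAlgClosed K] in
/-- elements of the field generated by two rings are fractions of elements of the image of the tensor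
product (`freeComp_gen` for rings). -/
theorem count_gen {A₁ A₂ Φ : Type u} [CommRing A₁] [Algebra K A₁] [CommRing A₂] [Algebra K A₂]
    [Field Φ] [Algebra K Φ] (j₁ : A₁ →ₐ[K] Φ) (j₂ : A₂ →ₐ[K] Φ) {z : Φ}
    (hz : z ∈ IntermediateField.adjoin K (Set.range j₁ ∪ Set.range j₂)) :
    ∃ b c : A₁ ⊗[K] A₂, Algebra.TensorProduct.productMap j₁ j₂ c ≠ 0 ∧
      z * Algebra.TensorProduct.productMap j₁ j₂ c = Algebra.TensorProduct.productMap j₁ j₂ b := by
  obtain ⟨r, hr, s, hs, rfl⟩ := IntermediateField.mem_adjoin_iff_div.1 hz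
  have hadj : Algebra.adjoin K (Set.range j₁ ∪ Set.range j₂)
      = (Algebra.TensorProduct.productMap j₁ j₂).range := by
    rw [Algebra.TensorProduct.productMap_range, Algebra.adjoin_union, ← AlgHom.coe_range,
      ← AlgHom.coe_range, Algebra.adjoin_eq, Algebra.adjoin_eq]
  rw [hadj] at hr hs
  obtain ⟨b, rfl⟩ := hr
  obtain ⟨c, rfl⟩ := hs
  by_cases hc : Algebra.TensorProduct.productMap j₁ j₂ c = 0
  · refine ⟨0, 1, by rw [map_one]; exact one_ne_zero, ?_⟩
    have hc' : (Algebra.TensorProduct.productMap j₁ j₂).toRingHom c = 0 := hc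
    rw [hc', div_zero, zero_mul, map_zero]
  · exact ⟨b, c, hc, div_mul_cancel₀ _ hc⟩

/-- the field generated by the images of two domains. -/
theorem count_trdeg_adjoin_le {A₁ A₂ Φ : Type u} [CommRing A₁] [IsDomain A₁] [Algebra K A₁]
    [CommRing A₂] [IsDomain A₂] [Algebra K A₂] [Field Φ] [Algebra K Φ] (j₁ : A₁ →ₐ[K] Φ)
    (j₂ : A₂ →ₐ[K] Φ) :
    Algebra.trdeg K (IntermediateField.adjoin K (Set.range j₁ ∪ Set.range j₂)) ≤
      Algebra.trdeg K A₁ + Algebra.trdeg K A₂ := by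
  have hdom : IsDomain (A₁ ⊗[K] A₂) := S27.isDomain_tensorProduct_of_isAlgClosed K A₁ A₂
  set Φ' : IntermediateField K Φ := IntermediateField.adjoin K (Set.range j₁ ∪ Set.range j₂)
    with hΦ'
  have h1 : ∀ x, j₁ x ∈ Φ' := fun x =>
    IntermediateField.subset_adjoin K _ (Or.inl ⟨x, rfl⟩)
  have h2 : ∀ x, j₂ x ∈ Φ' := fun x =>
    IntermediateField.subset_adjoin K _ (Or.inr ⟨x, rfl⟩)
  let k₁ : A₁ →ₐ[K] Φ' := j₁.codRestrict Φ'.toSubalgebra h1
  let k₂ : A₂ →ₐ[K] Φ' := j₂.codRestrict Φ'.toSubalgebra h2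
  have e3 : Φ'.val.comp (Algebra.TensorProduct.productMap k₁ k₂)
      = Algebra.TensorProduct.productMap j₁ j₂ := by
    apply Algebra.TensorProduct.ext'
    intro x y
    simp only [AlgHom.comp_apply, Algebra.TensorProduct.productMap_apply_tmul, map_mul]
    rfl
  have e3' : ∀ t, ((Algebra.TensorProduct.productMap k₁ k₂ t : Φ') : Φ)
      = Algebra.TensorProduct.productMap j₁ j₂ t := fun t => AlgHom.congr_fun e3 t
  have hgen : ∀ z : Φ', ∃ b c : A₁ ⊗[K] A₂, Algebra.TensorProduct.productMap k₁ k₂ c ≠ 0 ∧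
      z * Algebra.TensorProduct.productMap k₁ k₂ c = Algebra.TensorProduct.productMap k₁ k₂ b := by
    intro z
    obtain ⟨b, c, hc, hz⟩ := count_gen j₁ j₂ z.2
    refine ⟨b, c, ?_, ?_⟩
    · intro h0
      apply hc
      rw [← e3', h0]
      rfl
    · apply Subtype.ext
      change (z : Φ) * ((Algebra.TensorProduct.productMap k₁ k₂ c : Φ') : Φ) = _
      rw [e3', e3', hz]
  rw [freeComp_trdeg_quot _ hgen]
  refine le_trans ?_ (trdeg_tensorProduct_le K A₁ A₂)
  exact trdeg_le_of_surjective (Ideal.Quotient.mkₐ K _) Ideal.Quotient.mk_surjective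

omit [IsAlgClosed K] in
theorem count_range_kerLift {A Φ : Type u} [CommRing A] [Algebra K A] [Field Φ] [Algebra K Φ]
    (s : A →ₐ[K] Φ) : Set.range (Ideal.kerLiftAlg s) = Set.range s := by
  ext x
  constructor
  · rintro ⟨y, rfl⟩
    obtain ⟨y, rfl⟩ := Ideal.Quotient.mk_surjective y
    exact ⟨y, (Ideal.kerLiftAlg_mk s y).symm⟩
  · rintro ⟨y, rfl⟩
    exact ⟨Ideal.Quotient.mk _ y, Ideal.kerLiftAlg_mk s y⟩

/-- the field generated by the images of two rings. -/
theorem count_trdeg_adjoin_le' {A₁ A₂ Φ : Type u} [CommRing A₁] [Algebra K A₁]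
    [CommRing A₂] [Algebra K A₂] [Field Φ] [Algebra K Φ] (s : A₁ →ₐ[K] Φ) (w : A₂ →ₐ[K] Φ) :
    Algebra.trdeg K (IntermediateField.adjoin K (Set.range s ∪ Set.range w)) ≤
      Algebra.trdeg K (A₁ ⧸ RingHom.ker s) + Algebra.trdeg K (A₂ ⧸ RingHom.ker w) := by
  have hs : (RingHom.ker s).IsPrime := RingHom.ker_isPrime s
  have hw : (RingHom.ker w).IsPrime := RingHom.ker_isPrime w
  have h := count_trdeg_adjoin_le (Ideal.kerLiftAlg s) (Ideal.kerLiftAlg w)
  rwa [count_range_kerLift, count_range_kerLift] at h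

omit [IsAlgClosed K] in
/-- a strictly bigger prime has a quotient of strictly smaller transcendence degree. -/
theorem count_trdeg_quot_lt {R : Type u} [CommRing R] [Algebra K R] (I J : Ideal R) [I.IsPrime]
    [J.IsPrime] (hIJ : I < J) (hfin : Algebra.trdeg K (R ⧸ I) < Cardinal.aleph0) :
    Algebra.trdeg K (R ⧸ J) < Algebra.trdeg K (R ⧸ I) := by
  have hprime : (J.map (Ideal.Quotient.mk I)).IsPrime :=
    Ideal.map_isPrime_of_surjective Ideal.Quotient.mk_surjective (by rw [Ideal.mk_ker]; exact hIJ.le)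
  have hne : J.map (Ideal.Quotient.mk I) ≠ ⊥ := by
    intro h
    rw [Ideal.map_eq_bot_iff_le_ker, Ideal.mk_ker] at h
    exact not_le_of_gt hIJ h
  have h1 := trdeg_quotient_lt K (R ⧸ I) hfin (J.map (Ideal.Quotient.mk I)) hne
  have e : ((R ⧸ I) ⧸ J.map (Ideal.Quotient.mk I)) ≃ₐ[K] R ⧸ J :=
    DoubleQuot.quotQuotEquivQuotOfLEₐ K hIJ.le
  rw [← e.trdeg_eq]
  exact h1

section B

variable (G : Geo 𝔸 g) (P : Ideal G.R₀) [P.IsPrime] (htr : Algebra.trdeg K (G.R₀ ⧸ P) + 1 = g)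
  (D : CartDiv G P)
  {B F : Type u} [CommRing B] [IsDomain B] [Algebra K B] [Field F] [Algebra K F]
  (b : B →ₐ[K] F) (hb : Function.Injective b)
  (hfrac : ∀ z : F, ∃ x y : B, b y ≠ 0 ∧ z * b y = b x) (htrF : Algebra.trdeg K F ≤ 1)
  (fB : 𝔸.pt B)

include htr hb hfrac htrF in
/-- (B1) the transcendence degree count, over a field `k` -/
theorem s2_count (k : Type u) [Field k] [Algebra K k] (j : G.FF →ₐ[K] k) (s : B →ₐ[K] k)
    (w : G.R₀ →ₐ[K] k) (a : 𝔸.pt K)
    (hpt : 𝔸.map j G.η = 𝔸.map s fB + (𝔸.map w G.ι₀ + 𝔸.cst k a))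
    (hPa : D.Pa a ≤ RingHom.ker w) :
    Function.Injective s ∧ RingHom.ker w = D.Pa a := by
  have hkw : (RingHom.ker w).IsPrime := RingHom.ker_isPrime w
  have hks : (RingHom.ker s).IsPrime := RingHom.ker_isPrime s
  have hPaTop : D.Pa a ≠ ⊤ := fun h => hkw.ne_top (top_le_iff.1 (h ▸ hPa))
  obtain ⟨hPaPrime, γ, hγker, hγgen, -⟩ := (D.Pa_alt a).resolve_left hPaTop
  -- the transcendence degree of `R₀ ⧸ Pa a`
  have ht1 : Algebra.trdeg K (G.R₀ ⧸ D.Pa a) = Algebra.trdeg K (G.R₀ ⧸ P) := by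
    rw [← hγker, ← freeComp_trdeg_quot γ hγgen]
    exact trdeg_eq_of_isFractionRing K (G.R₀ ⧸ P) (G.kV P)
  have hfin0 : Algebra.trdeg K (G.R₀ ⧸ P) < Cardinal.aleph0 :=
    lt_of_le_of_lt le_self_add (htr ▸ Cardinal.natCast_lt_aleph0)
  obtain ⟨t, ht⟩ := Cardinal.lt_aleph0.1 hfin0
  have htg : t + 1 = g := by
    rw [ht] at htr
    exact_mod_cast htr
  rw [ht] at ht1
  -- lower bound
  set T₁ : IntermediateField K k := IntermediateField.adjoin K (Set.range s ∪ Set.range w) with hT₁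
  have h1 : ∀ x, s x ∈ T₁ := fun x => IntermediateField.subset_adjoin K _ (Or.inl ⟨x, rfl⟩)
  have h2 : ∀ x, w x ∈ T₁ := fun x => IntermediateField.subset_adjoin K _ (Or.inr ⟨x, rfl⟩)
  let s' : B →ₐ[K] T₁ := s.codRestrict T₁.toSubalgebra h1
  let w' : G.R₀ →ₐ[K] T₁ := w.codRestrict T₁.toSubalgebra h2
  have e1 : T₁.val.comp s' = s := AlgHom.ext fun _ => rfl
  have e2 : T₁.val.comp w' = w := AlgHom.ext fun _ => rfl
  have hp : 𝔸.map T₁.val (𝔸.map s' fB + (𝔸.map w' G.ι₀ + 𝔸.cst T₁ a))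
      = 𝔸.map (j.comp (IsScalarTower.toAlgHom K G.R₀ G.FF)) G.ι₀ := by
    rw [← G.DG1_map_η, hpt, 𝔸.map_add, 𝔸.map_add, ← 𝔸.map_comp, ← 𝔸.map_comp, DG1_map_cst, e1, e2]
  obtain ⟨w'', -, hw''⟩ := G.descend_chart T₁.val _ _ hp
  have hinj : Function.Injective w'' := by
    have h3 : Function.Injective (T₁.val.comp w'') := by
      rw [hw'']
      exact j.injective.comp (IsFractionRing.injective G.R₀ G.FF)
    exact Function.Injective.of_comp (f := T₁.val) (by simpa using h3)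
  have hlow : (g : Cardinal) ≤ Algebra.trdeg K T₁ := by
    rw [← et_trdeg K G.R₀ g G.y₀ G.et]
    exact trdeg_le_of_injective w'' hinj
  -- upper bound
  have hup := count_trdeg_adjoin_le' s w
  rw [← hT₁] at hup
  have hB1 : Algebra.trdeg K B ≤ 1 := (trdeg_le_of_injective b hb).trans htrF
  have hBs : Algebra.trdeg K (B ⧸ RingHom.ker s) ≤ 1 :=
    (trdeg_le_of_surjective (Ideal.Quotient.mkₐ K _) Ideal.Quotient.mk_surjective).trans hB1
  have hRw : Algebra.trdeg K (G.R₀ ⧸ RingHom.ker w) ≤ t := by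
    rw [← ht1]
    exact trdeg_le_of_surjective (Ideal.Quotient.factorₐ K hPa) (Ideal.Quotient.factor_surjective hPa)
  constructor
  · rw [RingHom.injective_iff_ker_eq_bot]
    by_contra hne
    have h3 := trdeg_quotient_lt K B (hB1.trans_lt Cardinal.one_lt_aleph0) (RingHom.ker s) hne
    have h4 : Algebra.trdeg K (B ⧸ RingHom.ker s) = 0 := Cardinal.lt_one_iff.1 (h3.trans_le hB1)
    have h5 : (g : Cardinal) ≤ 0 + t := hlow.trans (hup.trans (add_le_add h4.le hRw))
    rw [zero_add] at h5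
    have h6 : g ≤ t := by exact_mod_cast h5
    omega
  · by_contra hne
    have hlt : D.Pa a < RingHom.ker w := lt_of_le_of_ne hPa (Ne.symm hne)
    have h3 := count_trdeg_quot_lt (K := K) (D.Pa a) (RingHom.ker w) hlt
      (by rw [ht1]; exact Cardinal.natCast_lt_aleph0)
    rw [ht1] at h3
    obtain ⟨n, hn⟩ := Cardinal.lt_aleph0.1 (h3.trans Cardinal.natCast_lt_aleph0)
    rw [hn] at h3 hup
    have h4 : n < t := by exact_mod_cast h3
    have h5 : (g : Cardinal) ≤ 1 + n := hlow.trans (hup.trans (add_le_add hBs le_rfl))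
    have h6 : g ≤ 1 + n := by exact_mod_cast h5
    omega

end B

end Fermat.Agent.S26
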