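/-
S26 / S2 / Indep : (B2) the two generic points are independent (package S2-B2).
-/
import Fermat.Agent.S26.AV.DG2
import Fermat.Agent.S26.Alg.FreeComp

set_option autoImplicit false

open scoped TensorProduct

universe u

namespace Fermat.Agent.S26

variable {K : Type u} [Field K] [IsAlgClosed K] {𝔸 : AVF K} {g : ℕ}

section B

variable (G : Geo 𝔸 g) (P : Ideal G.R₀) [P.IsPrime] (htr : Algebra.trdeg K (G.R₀ ⧸ P) + 1 = g)
  (D : CartDiv G P)
  {B F : Type u} [CommRing B] [IsDomain B] [Algebra K B] [Field F] [Algebra K F]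
  (b : B →ₐ[K] F) (hb : Function.Injective b)
  (hfrac : ∀ z : F, ∃ x y : B, b y ≠ 0 ∧ z * b y = b x) (htrF : Algebra.trdeg K F ≤ 1)
  (fB : 𝔸.pt B)

include htr htrF in
/-- (B2) the two generic points are independent -/
theorem s2_indep (k : Type u) [Field k] [Algebra K k] (j : G.FF →ₐ[K] k) (s : F →ₐ[K] k)
    (θ : G.kV P →ₐ[K] k) (fF : 𝔸.pt F)
    (hpt : 𝔸.map j G.η = 𝔸.map s fF + 𝔸.map θ (G.ηV P)) :
    Function.Injective (Algebra.TensorProduct.productMap s θ) := by
  have hdom : IsDomain (F ⊗[K] G.kV P) := S27.isDomain_tensorProduct_of_isAlgClosed K F (G.kV P)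
  -- the compositum
  let T₁ : IntermediateField K k := IntermediateField.adjoin K (Set.range s ∪ Set.range θ)
  have h1 : ∀ x, s x ∈ T₁ := fun x => IntermediateField.subset_adjoin K _ (Or.inl ⟨x, rfl⟩)
  have h2 : ∀ x, θ x ∈ T₁ := fun x => IntermediateField.subset_adjoin K _ (Or.inr ⟨x, rfl⟩)
  let s' : F →ₐ[K] T₁ := s.codRestrict T₁.toSubalgebra h1
  let θ' : G.kV P →ₐ[K] T₁ := θ.codRestrict T₁.toSubalgebra h2
  have e1 : T₁.val.comp s' = s := AlgHom.ext fun _ => rfl
  have e2 : T₁.val.comp θ' = θ := AlgHom.ext fun _ => rfl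
  have e3 : T₁.val.comp (Algebra.TensorProduct.productMap s' θ')
      = Algebra.TensorProduct.productMap s θ := by
    apply Algebra.TensorProduct.ext'
    intro x y
    simp only [AlgHom.comp_apply, Algebra.TensorProduct.productMap_apply_tmul, map_mul]
    rfl
  have e3' : ∀ t, ((Algebra.TensorProduct.productMap s' θ' t : T₁) : k)
      = Algebra.TensorProduct.productMap s θ t := fun t => AlgHom.congr_fun e3 t
  have hg : ∀ z : T₁, ∃ b c : F ⊗[K] G.kV P, Algebra.TensorProduct.productMap s' θ' c ≠ 0 ∧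
      z * Algebra.TensorProduct.productMap s' θ' c = Algebra.TensorProduct.productMap s' θ' b := by
    intro z
    obtain ⟨b, c, hc, hz⟩ := freeComp_gen s θ z.2
    refine ⟨b, c, ?_, ?_⟩
    · intro h0
      apply hc
      rw [← e3', h0]
      rfl
    · apply Subtype.ext
      change (z : k) * ((Algebra.TensorProduct.productMap s' θ' c : T₁) : k) = _
      rw [e3', e3', hz]
  -- `g ≤ trdeg T₁`
  have hlow : (g : Cardinal) ≤ Algebra.trdeg K T₁ := by
    have hu : 𝔸.map T₁.val (𝔸.map s' fF + 𝔸.map θ' (G.ηV P)) =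
        𝔸.map (j.comp (IsScalarTower.toAlgHom K G.R₀ G.FF)) G.ι₀ := by
      rw [𝔸.map_add, ← 𝔸.map_comp, ← 𝔸.map_comp, e1, e2, ← hpt, G.DG1_map_η]
    obtain ⟨w, -, hw⟩ := G.descend_chart T₁.val _ _ hu
    have hwinj : Function.Injective w := by
      intro x y hxy
      have h3 : (T₁.val.comp w) x = (T₁.val.comp w) y := by
        simp only [AlgHom.comp_apply, hxy]
      rw [hw] at h3
      exact IsFractionRing.injective G.R₀ G.FF (j.toRingHom.injective h3)
    have h4 := trdeg_le_of_injective w hwinj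
    rwa [← trdeg_eq_of_isFractionRing K G.R₀ G.FF, G.trdeg_FF] at h4
  -- `trdeg (F ⊗ kV P) ≤ g`
  have hT : Algebra.trdeg K (F ⊗[K] G.kV P) ≤ (g : Cardinal) := by
    refine (trdeg_tensorProduct_le K F (G.kV P)).trans ?_
    rw [trdeg_eq_of_isFractionRing K (G.R₀ ⧸ P) (G.kV P), ← htr, add_comm]
    exact add_le_add le_rfl htrF
  have hfin : Algebra.trdeg K (F ⊗[K] G.kV P) < Cardinal.aleph0 :=
    hT.trans_lt (Cardinal.natCast_lt_aleph0)
  have hprime : (RingHom.ker (Algebra.TensorProduct.productMap s' θ')).IsPrime :=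
    RingHom.ker_isPrime _
  have hker : RingHom.ker (Algebra.TensorProduct.productMap s' θ') = ⊥ := by
    by_contra hne
    have h5 := trdeg_quotient_lt K (F ⊗[K] G.kV P) hfin _ hne
    have h6 := freeComp_trdeg_quot (Algebra.TensorProduct.productMap s' θ') hg
    have h7 : Algebra.trdeg K T₁ < Algebra.trdeg K (F ⊗[K] G.kV P) := h6.trans_lt h5
    exact absurd (hlow.trans h7.le |>.trans hT) (not_le.2 ((hlow.trans_lt h7).trans_le hT))
  have hinj : Function.Injective (Algebra.TensorProduct.productMap s' θ') :=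
    (RingHom.injective_iff_ker_eq_bot _).2 hker
  intro x y hxy
  apply hinj
  apply Subtype.ext
  rw [e3', e3', hxy]

end B

end Fermat.Agent.S26
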