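/-
S26 / S2 / Local : (B3) extension of a ring map to a fraction field with values in a local ring, and
(B4) the key lemma on local rings (package S2-B4).  Statements = `S2/Core.lean`, section B (verbatim).
-/
import Fermat.Agent.S26.S2.A
import Fermat.Agent.S26.S2.Count
import Fermat.Agent.S26.S2.Indep

set_option autoImplicit false
set_option linter.unusedSectionVars false

open scoped TensorProduct

universe u

namespace Fermat.Agent.S26

variable {K : Type u} [Field K] [IsAlgClosed K] {𝔸 : AVF K} {g : ℕ}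

omit [IsAlgClosed K] in
theorem local_map_sub {S S' : Type u} [CommRing S] [Algebra K S] [CommRing S'] [Algebra K S']
    (φ : S →ₐ[K] S') (a b : 𝔸.pt S) : 𝔸.map φ (a - b) = 𝔸.map φ a - 𝔸.map φ b := by
  have h := 𝔸.map_add φ (a - b) b
  rw [sub_add_cancel] at h
  exact eq_sub_of_add_eq h.symm

omit [IsAlgClosed K] in
theorem local_comp_productMap {A₁ A₂ T T' : Type u} [CommRing A₁] [Algebra K A₁] [CommRing A₂]
    [Algebra K A₂] [CommRing T] [Algebra K T] [CommRing T'] [Algebra K T'] (π : T →ₐ[K] T')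
    (f₁ : A₁ →ₐ[K] T) (f₂ : A₂ →ₐ[K] T) :
    π.comp (Algebra.TensorProduct.productMap f₁ f₂)
      = Algebra.TensorProduct.productMap (π.comp f₁) (π.comp f₂) := by
  apply Algebra.TensorProduct.ext'
  intro x y
  simp only [AlgHom.comp_apply, Algebra.TensorProduct.productMap_apply_tmul, map_mul]

section B

variable (G : Geo 𝔸 g) (P : Ideal G.R₀) [P.IsPrime] (htr : Algebra.trdeg K (G.R₀ ⧸ P) + 1 = g)
  (D : CartDiv G P)
  {B F : Type u} [CommRing B] [IsDomain B] [Algebra K B] [Field F] [Algebra K F]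
  (b : B →ₐ[K] F) (hb : Function.Injective b)
  (hfrac : ∀ z : F, ∃ x y : B, b y ≠ 0 ∧ z * b y = b x) (htrF : Algebra.trdeg K F ≤ 1)
  (fB : 𝔸.pt B)

/-- (B3) extension of a ring map to a fraction field, with values in a local ring -/
theorem s2_extend {A E T k : Type u} [CommRing A] [Algebra K A] [Field E] [Algebra K E]
    [CommRing T] [IsLocalRing T] [Algebra K T] [Field k] [Algebra K k] (π : T →ₐ[K] k)
    (hπ : ∀ t : T, π t ≠ 0 → IsUnit t) (c : A →ₐ[K] E)
    (hfr : ∀ z : E, ∃ x y : A, c y ≠ 0 ∧ z * c y = c x) (φ : A →ₐ[K] T)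
    (hker : ∀ x : A, π (φ x) = 0 ↔ c x = 0) (hker' : ∀ x : A, c x = 0 → φ x = 0) :
    ∃ φ' : E →ₐ[K] T, φ'.comp c = φ := by
  classical
  have hu : ∀ y : A, c y ≠ 0 → IsUnit (φ y) := fun y hy => hπ _ (fun h => hy ((hker y).1 h))
  choose X Y hY hXY using hfr
  let f : E → T := fun z => φ (X z) * ((hu (Y z) (hY z)).unit⁻¹ : Tˣ)
  have hf : ∀ z, f z * φ (Y z) = φ (X z) := by
    intro z
    show φ (X z) * _ * φ (Y z) = _
    rw [mul_assoc, IsUnit.val_inv_mul, mul_one]
  have key : ∀ (z : E) (x y : A) (t : T), c y ≠ 0 → z * c y = c x → t * φ y = φ x → f z = t := by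
    intro z x y t hy hz ht
    have h1 : φ (X z * y) = φ (x * Y z) := by
      have h0 : c (X z * y - x * Y z) = 0 := by
        rw [map_sub, map_mul, map_mul, ← hXY, ← hz]; ring
      have h2 := hker' _ h0
      rwa [map_sub, sub_eq_zero] at h2
    apply (hu y hy).mul_right_cancel
    apply (hu _ (hY z)).mul_right_cancel
    calc f z * φ y * φ (Y z) = (f z * φ (Y z)) * φ y := by ring
      _ = φ (X z * y) := by rw [hf, map_mul]
      _ = φ (x * Y z) := h1
      _ = t * φ y * φ (Y z) := by rw [map_mul, ht]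
  have hc1 : c 1 ≠ 0 := by rw [map_one]; exact one_ne_zero
  refine ⟨{ toFun := f, map_one' := ?_, map_mul' := ?_, map_zero' := ?_, map_add' := ?_,
            commutes' := ?_ }, ?_⟩
  · exact key 1 1 1 1 hc1 (by rw [one_mul]) (by rw [one_mul])
  · intro z z'
    refine key (z * z') (X z * X z') (Y z * Y z') _ ?_ ?_ ?_
    · rw [map_mul]; exact mul_ne_zero (hY z) (hY z')
    · rw [map_mul, map_mul, ← hXY, ← hXY]; ring
    · rw [map_mul, map_mul, ← hf, ← hf]; ring
  · exact key 0 0 1 0 hc1 (by rw [zero_mul, map_zero]) (by rw [zero_mul, map_zero])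
  · intro z z'
    refine key (z + z') (X z * Y z' + X z' * Y z) (Y z * Y z') _ ?_ ?_ ?_
    · rw [map_mul]; exact mul_ne_zero (hY z) (hY z')
    · rw [map_mul, map_add, map_mul, map_mul, ← hXY, ← hXY]; ring
    · rw [map_mul, map_add, map_mul, map_mul, ← hf, ← hf]; ring
  · intro r
    refine key _ (algebraMap K A r) 1 _ hc1 ?_ ?_
    · rw [map_one, mul_one, AlgHom.commutes]
    · rw [map_one, mul_one, AlgHom.commutes]
  · apply AlgHom.ext
    intro a
    exact key (c a) a 1 (φ a) hc1 (by rw [map_one, mul_one]) (by rw [map_one, mul_one])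

include htr hb hfrac htrF in
/-- (B4) **the key lemma** -/
theorem s2_local (Φ : Type u) [Field Φ] [Algebra K Φ] (i₁ : F →ₐ[K] Φ) (i₂ : G.kV P →ₐ[K] Φ)
    (hΦ : IsFreeComp i₁ i₂) (T : Type u) [CommRing T] [IsLocalRing T] [Algebra K T]
    (jT : G.FF →ₐ[K] T) (sT : B →ₐ[K] T)
    (hcan : D.can (𝔸.map jT G.η - 𝔸.map sT fB) = 0) :
    ∃ (j₀ : G.FF →ₐ[K] Φ) (ρ : Φ →ₐ[K] T),
      𝔸.map j₀ G.η = 𝔸.map (i₁.comp b) fB + 𝔸.map i₂ (G.ηV P) ∧
      ρ.comp j₀ = jT ∧ ρ.comp (i₁.comp b) = sT := by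
  -- the residue field
  let k : Type u := IsLocalRing.ResidueField T
  let π : T →ₐ[K] k := IsScalarTower.toAlgHom K T k
  have hπ : ∀ t : T, π t ≠ 0 → IsUnit t := fun t ht => (IsLocalRing.residue_ne_zero_iff_isUnit t).1 ht
  -- a chart containing `η - f`
  obtain ⟨l, hl⟩ := G.cover
  obtain ⟨a, -, w, hw⟩ := hl T (𝔸.map jT G.η - 𝔸.map sT fB)
  rw [hw] at hcan
  have hPaw : D.Pa a ≤ RingHom.ker w := (D.can_eq_zero_iff w a).1 hcan
  have hptT : 𝔸.map jT G.η = 𝔸.map sT fB + (𝔸.map w G.ι₀ + 𝔸.cst T a) := by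
    rw [← hw]; abel
  have hptk : 𝔸.map (π.comp jT) G.η
      = 𝔸.map (π.comp sT) fB + (𝔸.map (π.comp w) G.ι₀ + 𝔸.cst k a) := by
    rw [𝔸.map_comp, hptT, 𝔸.map_add, 𝔸.map_add, DG1_map_cst, ← 𝔸.map_comp, ← 𝔸.map_comp]
  have hPak : D.Pa a ≤ RingHom.ker (π.comp w) := by
    intro x hx
    have h1 : w x = 0 := hPaw hx
    show π (w x) = 0
    rw [h1, map_zero]
  obtain ⟨hsinj, hkerw⟩ := s2_count G P htr D b hb hfrac htrF fB k (π.comp jT) (π.comp sT)
    (π.comp w) a hptk hPak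
  have hPaTop : D.Pa a ≠ ⊤ := by
    rw [← hkerw]; exact RingHom.ker_ne_top _
  obtain ⟨-, γ, hγker, hγgen, hγ⟩ := (D.Pa_alt a).resolve_left hPaTop
  -- first extension
  obtain ⟨θ, hθ⟩ := s2_extend π hπ γ hγgen w
    (fun x => by
      have h1 : x ∈ RingHom.ker (π.comp w) ↔ x ∈ RingHom.ker γ := by rw [hkerw, hγker]
      exact h1)
    (fun x hx => by
      have h1 : x ∈ RingHom.ker γ := hx
      rw [hγker] at h1
      exact hPaw h1)
  -- second extension
  obtain ⟨s', hs'⟩ := s2_extend π hπ b hfrac sT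
    (fun x => by
      constructor
      · intro h
        have h1 : (π.comp sT) x = (π.comp sT) 0 := by rw [map_zero]; exact h
        rw [hsinj h1, map_zero]
      · intro h
        have h1 : b x = b 0 := by rw [map_zero]; exact h
        rw [hb h1, map_zero, map_zero])
    (fun x h => by
      have h1 : b x = b 0 := by rw [map_zero]; exact h
      rw [hb h1, map_zero])
  have hθη : 𝔸.map θ (G.ηV P) = 𝔸.map w G.ι₀ + 𝔸.cst T a := by
    rw [← hγ, 𝔸.map_add, DG1_map_cst, ← 𝔸.map_comp, hθ]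
  have hptT' : 𝔸.map jT G.η = 𝔸.map s' (𝔸.map b fB) + 𝔸.map θ (G.ηV P) := by
    rw [hθη, ← 𝔸.map_comp, hs', hptT]
  have hptk' : 𝔸.map (π.comp jT) G.η
      = 𝔸.map (π.comp s') (𝔸.map b fB) + 𝔸.map (π.comp θ) (G.ηV P) := by
    rw [𝔸.map_comp, hptT', 𝔸.map_add, ← 𝔸.map_comp, ← 𝔸.map_comp π θ]
  have hind := s2_indep G P htr htrF k (π.comp jT) (π.comp s') (π.comp θ) (𝔸.map b fB) hptk'
  rw [← local_comp_productMap] at hind
  -- third extension
  obtain ⟨ρ, hρ⟩ := s2_extend π hπ (Algebra.TensorProduct.productMap i₁ i₂) hΦ.gen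
    (Algebra.TensorProduct.productMap s' θ)
    (fun x => by
      constructor
      · intro h
        have h1 : (π.comp (Algebra.TensorProduct.productMap s' θ)) x
            = (π.comp (Algebra.TensorProduct.productMap s' θ)) 0 := by rw [map_zero]; exact h
        rw [hind h1, map_zero]
      · intro h
        have h1 : Algebra.TensorProduct.productMap i₁ i₂ x
            = Algebra.TensorProduct.productMap i₁ i₂ 0 := by rw [map_zero]; exact h
        rw [hΦ.inj h1, map_zero, map_zero])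
    (fun x h => by
      have h1 : Algebra.TensorProduct.productMap i₁ i₂ x
          = Algebra.TensorProduct.productMap i₁ i₂ 0 := by rw [map_zero]; exact h
      rw [hΦ.inj h1, map_zero])
  have hρ1 : ρ.comp i₁ = s' := by
    rw [← Algebra.TensorProduct.productMap_left (f := i₁) (g := i₂), ← AlgHom.comp_assoc, hρ,
      Algebra.TensorProduct.productMap_left]
  have hρ2 : ρ.comp i₂ = θ := by
    rw [← Algebra.TensorProduct.productMap_right (f := i₁) (g := i₂), ← AlgHom.comp_assoc, hρ,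
      Algebra.TensorProduct.productMap_right]
  have hρb : ρ.comp (i₁.comp b) = sT := by
    rw [← AlgHom.comp_assoc, hρ1, hs']
  have hρu : 𝔸.map ρ (𝔸.map (i₁.comp b) fB + 𝔸.map i₂ (G.ηV P)) = 𝔸.map jT G.η := by
    rw [𝔸.map_add, ← 𝔸.map_comp, ← 𝔸.map_comp, hρb, hρ2, hθη, hptT]
  -- genericity
  obtain ⟨w₀, hw₀, hw₀'⟩ := G.descend_chart (π.comp ρ)
    (𝔸.map (i₁.comp b) fB + 𝔸.map i₂ (G.ηV P))
    ((π.comp jT).comp (IsScalarTower.toAlgHom K G.R₀ G.FF))
    (by rw [𝔸.map_comp, hρu, ← 𝔸.map_comp, G.DG1_map_η])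
  have hw₀inj : Function.Injective w₀ := by
    have h1 : Function.Injective ((π.comp ρ).comp w₀) := by
      rw [hw₀']
      exact ((π.comp jT).toRingHom.injective).comp (IsFractionRing.injective G.R₀ G.FF)
    exact Function.Injective.of_comp (f := π.comp ρ) h1
  have hj₀ : 𝔸.map (IsFractionRing.liftAlgHom (K := G.FF) hw₀inj) G.η
      = 𝔸.map (i₁.comp b) fB + 𝔸.map i₂ (G.ηV P) := by
    rw [G.DG1_map_η, DG1_liftAlgHom_comp hw₀inj, ← hw₀]
  refine ⟨IsFractionRing.liftAlgHom (K := G.FF) hw₀inj, ρ, hj₀, ?_, hρb⟩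
  have h1 : 𝔸.map (ρ.comp (IsFractionRing.liftAlgHom (K := G.FF) hw₀inj)) G.η = 𝔸.map jT G.η := by
    rw [𝔸.map_comp, hj₀, hρu]
  rw [G.DG1_map_η, G.DG1_map_η] at h1
  have h2 := G.mono _ _ h1
  apply AlgHom.coe_ringHom_injective
  apply IsLocalization.ringHom_ext (nonZeroDivisors G.R₀)
  apply RingHom.ext
  intro x
  exact DFunLike.congr_fun h2 x

end B

end Fermat.Agent.S26
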