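/-
S26 / S2 / Core : block S2 (`deg (f + η_V)` is an intersection number).  AGGREGATOR (INT-TOP):
S2-A : `S2/A.lean`; S2-B : `S2/Count.lean`, `S2/Indep.lean`, `S2/Local.lean`; S2-C : `S2/CoreProof.lean`
(wired below); S2-D : `S2/Main.lean`.
-/
import Fermat.Agent.S26.AV.DG2
import Fermat.Agent.S26.Alg.FreeComp
import Fermat.Agent.S26.Curve.Coh
import Fermat.Agent.S26.Curve.Fam
import Fermat.Agent.S26.S2.A
import Fermat.Agent.S26.S2.Count
import Fermat.Agent.S26.S2.Indep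
import Fermat.Agent.S26.S2.Local
import Fermat.Agent.S26.S2.CoreProof

set_option autoImplicit false

open scoped TensorProduct

universe u

namespace Fermat.Agent.S26

variable {K : Type u} [Field K] [IsAlgClosed K] {𝔸 : AVF K} {g : ℕ}

section B

variable (G : Geo 𝔸 g) (P : Ideal G.R₀) [P.IsPrime] (htr : Algebra.trdeg K (G.R₀ ⧸ P) + 1 = g)
  (D : CartDiv G P)
  {B F : Type u} [CommRing B] [IsDomain B] [Algebra K B] [Field F] [Algebra K F]
  (b : B →ₐ[K] F) (hb : Function.Injective b)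
  (hfrac : ∀ z : F, ∃ x y : B, b y ≠ 0 ∧ z * b y = b x) (htrF : Algebra.trdeg K F ≤ 1)
  (fB : 𝔸.pt B)

/-! ### S2-C : the scheme `{s : η - f(s) ∈ V}` is empty or one reduced point -/

include htr hb hfrac htrF in
theorem s2_core [Algebra.FiniteType K B] (Φ : Type u) [Field Φ] [Algebra K Φ] (i₁ : F →ₐ[K] Φ)
    (i₂ : G.kV P →ₐ[K] Φ) (hΦ : IsFreeComp i₁ i₂) (I : Ideal (G.FF ⊗[K] B))
    (hI : I = LinearMap.range (D.can
      (𝔸.map (Algebra.TensorProduct.includeLeft : G.FF →ₐ[K] G.FF ⊗[K] B) G.η -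
        𝔸.map (Algebra.TensorProduct.includeRight : B →ₐ[K] G.FF ⊗[K] B) fB))) :
    (I = ⊤ ∨ I.IsMaximal) ∧
      Module.finrank G.FF ((G.FF ⊗[K] B) ⧸ I) =
        G.deg (𝔸.map (i₁.comp b) fB + 𝔸.map i₂ (G.ηV P)) :=
  CoreProof_main htr hfrac htrF hΦ
    (fun T _ _ _ jT sT hcan => s2_local G P htr D b hb hfrac htrF fB Φ i₁ i₂ hΦ T jT sT hcan) I hI

end B

end Fermat.Agent.S26
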