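/-
S26 / S2 / Main : `deg (f + η_V) = - deg (-f)^* O(-V)` (package S2-D: wiring of the three charts, the
colength formula and translation invariance of the degree).
-/
import Fermat.Agent.S26.S2.Core
import Fermat.Agent.S26.AV.TI
import Fermat.Agent.S26.T6.CurveOfField
import Fermat.Agent.S27.B.TensorDomain

set_option autoImplicit false

open scoped TensorProduct

universe u

namespace Fermat.Agent.S26

variable {K : Type u} [Field K] [IsAlgClosed K] {𝔸 : AVF K} {g : ℕ}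

/-! ### auxiliary algebra -/

omit [IsAlgClosed K] in
/-- `dimOver` of a quotient ring is the usual dimension. -/
theorem Main_dimOver_quot (κ S : Type u) [Field κ] [CommRing S] [Algebra κ S] (I : Ideal S) :
    dimOver κ S (S ⧸ I) = Module.finrank κ (S ⧸ I) := by
  have h : Module.compHom (S ⧸ I) (algebraMap κ S) = (inferInstance : Module κ (S ⧸ I)) := by
    apply Module.ext'
    intro r x
    exact algebraMap_smul S r x
  unfold dimOver
  rw [h]

omit [IsAlgClosed K] in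
/-- fractions: `Frac B' = Frac B` if `B' = B[1/t]`. -/
theorem Main_frac {B B' F : Type u} [CommRing B] [CommRing B'] [IsDomain B'] [Field F] [Algebra K B]
    [Algebra K B'] [Algebra K F] [Algebra B' F] [IsScalarTower K B' F] [IsFractionRing B' F]
    (j : B →ₐ[K] B') (t : B) (ht : j t ≠ 0)
    (loc : ∀ β : B', ∃ (n : ℕ) (a : B), β * j t ^ n = j a) (z : F) :
    ∃ x y : B, ((IsScalarTower.toAlgHom K B' F).comp j) y ≠ 0 ∧
      z * ((IsScalarTower.toAlgHom K B' F).comp j) y = ((IsScalarTower.toAlgHom K B' F).comp j) x := by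
  obtain ⟨β, γ, hγ, rfl⟩ := IsFractionRing.div_surjective (A := B') z
  have hγ0 : γ ≠ 0 := nonZeroDivisors.ne_zero hγ
  obtain ⟨n, a, ha⟩ := loc β
  obtain ⟨m, c, hc⟩ := loc γ
  have hinj : Function.Injective (algebraMap B' F) := IsFractionRing.injective B' F
  have hγ' : algebraMap B' F γ ≠ 0 := fun h => hγ0 (hinj (by rw [h, map_zero]))
  have e : ∀ w : B, ((IsScalarTower.toAlgHom K B' F).comp j) w = algebraMap B' F (j w) := fun _ => rfl
  refine ⟨a * t ^ m, c * t ^ n, ?_, ?_⟩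
  · rw [e, map_mul, map_pow, ← hc]
    intro h
    have := hinj (h.trans (map_zero _).symm)
    exact mul_ne_zero (mul_ne_zero hγ0 (pow_ne_zero _ ht)) (pow_ne_zero _ ht) this
  · rw [e, e, map_mul j, map_mul j, map_pow j, map_pow j, ← hc, ← ha]
    simp only [map_mul, map_pow]
    field_simp

/-- `𝕂 ⊗ B01` is not a field. -/
theorem Main_bot_not_isMaximal (C : Curve K) (𝕂 : Type u) [Field 𝕂] [Algebra K 𝕂] :
    ¬ (⊥ : Ideal (C.S01 𝕂)).IsMaximal := by
  intro hmax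
  have := C.finiteType_B01
  obtain ⟨q⟩ := Fermat.Agent.S27.td_exists_algHom K C.B01
  let π : C.S01 𝕂 →ₐ[K] 𝕂 :=
    Algebra.TensorProduct.productMap (AlgHom.id K 𝕂) ((Algebra.ofId K 𝕂).comp q)
  let z : C.B01 := C.j0 C.x
  let t : C.S01 𝕂 := (1 : 𝕂) ⊗ₜ[K] (z - algebraMap K C.B01 (q z))
  have hπ : π t = 0 := by
    simp only [π, t, Algebra.TensorProduct.productMap_apply_tmul, AlgHom.coe_id, id_eq, one_mul,
      AlgHom.comp_apply, map_sub, AlgHom.commutes]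
    exact sub_self _
  have hker : RingHom.ker π.toRingHom = ⊥ :=
    (hmax.eq_of_le (RingHom.ker_ne_top _) bot_le).symm
  have ht : t = 0 := by
    have h1 : t ∈ RingHom.ker π.toRingHom := hπ
    rwa [hker, Ideal.mem_bot] at h1
  have hinj : Function.Injective (Algebra.TensorProduct.includeRight : C.B01 →ₐ[K] 𝕂 ⊗[K] C.B01) :=
    Algebra.TensorProduct.includeRight_injective (algebraMap K 𝕂).injective
  have hz : z - algebraMap K C.B01 (q z) = 0 := hinj (by rw [map_zero]; exact ht)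
  have hx : C.x = algebraMap K C.B0 (q z) :=
    C.j0_inj (by rw [C.j0.commutes]; exact sub_eq_zero.1 hz)
  have h0 : Polynomial.aeval C.x (Polynomial.X - Polynomial.C (q z))
      = Polynomial.aeval C.x (0 : Polynomial K) := by
    rw [map_sub, Polynomial.aeval_X, Polynomial.aeval_C, map_zero, ← hx, sub_self]
  exact Polynomial.X_sub_C_ne_zero _ (curveOfField_x_injective C h0)

/-! ### one chart -/

section Chart

variable (G : Geo 𝔸 g) (P : Ideal G.R₀) [P.IsPrime] (htr : Algebra.trdeg K (G.R₀ ⧸ P) + 1 = g)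
  (D : CartDiv G P) {C : Curve K}

include htr in
theorem Main_chart (Φ : Type u) [Field Φ] [Algebra K Φ] (i₁ : C.FF →ₐ[K] Φ)
    (i₂ : G.kV P →ₐ[K] Φ) (hΦ : IsFreeComp i₁ i₂)
    {B : Type u} [CommRing B] [IsDomain B] [Algebra K B] [Algebra.FiniteType K B]
    (b : B →ₐ[K] C.FF) (hb : Function.Injective b)
    (hfrac : ∀ z : C.FF, ∃ x y : B, b y ≠ 0 ∧ z * b y = b x)
    (f0 : 𝔸.pt (K ⊗[K] B)) (gen : 𝔸.pt C.FF)
    (hgen : 𝔸.map (b.comp (Algebra.TensorProduct.lid K B).toAlgHom) f0 = gen)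
    (u0 : 𝔸.pt (G.FF ⊗[K] B))
    (hu0 : u0 = 𝔸.map (Algebra.TensorProduct.map (Algebra.ofId K G.FF) (AlgHom.id K B)) (-f0)
      + 𝔸.map (Algebra.TensorProduct.includeLeft : G.FF →ₐ[K] G.FF ⊗[K] B) G.η) :
    ((LinearMap.range (D.can u0) : Ideal (G.FF ⊗[K] B)) = ⊤ ∨
      Ideal.IsMaximal (LinearMap.range (D.can u0) : Ideal (G.FF ⊗[K] B))) ∧
    dimOver G.FF (G.FF ⊗[K] B) ((G.FF ⊗[K] B) ⧸ (LinearMap.range (D.can u0) : Ideal (G.FF ⊗[K] B)))
      = G.deg (𝔸.map i₁ gen + 𝔸.map i₂ (G.ηV P)) := by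
  have htrF : Algebra.trdeg K C.FF ≤ 1 := le_of_eq C.trdeg_FF
  have e1 : u0 = 𝔸.map (Algebra.TensorProduct.includeLeft : G.FF →ₐ[K] G.FF ⊗[K] B) G.η -
      𝔸.map (Algebra.TensorProduct.includeRight : B →ₐ[K] G.FF ⊗[K] B)
        (𝔸.map (Algebra.TensorProduct.lid K B).toAlgHom f0) := by
    rw [hu0, 𝔸.map_neg, ← 𝔸.map_comp, neg_add_eq_sub]
    congr 2
    ext
    simp
  have key := s2_core G P htr D b hb hfrac htrF (𝔸.map (Algebra.TensorProduct.lid K B).toAlgHom f0)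
    Φ i₁ i₂ hΦ (LinearMap.range (D.can u0)) (by rw [e1])
  rw [Main_dimOver_quot, ← hgen, ← 𝔸.map_comp]
  rw [← 𝔸.map_comp] at key
  exact key

end Chart

/-! ### the theorem -/

theorem s2 (G : Geo 𝔸 g) (P : Ideal G.R₀) [P.IsPrime]
    (htr : Algebra.trdeg K (G.R₀ ⧸ P) + 1 = g) (D : CartDiv G P) {C : Curve K}
    (f : CPt C 𝔸.toPtF K) (Φ : Type u) [Field Φ] [Algebra K Φ] (i₁ : C.FF →ₐ[K] Φ)
    (i₂ : G.kV P →ₐ[K] Φ) (hΦ : IsFreeComp i₁ i₂) :
    (G.deg (𝔸.map i₁ f.gen + 𝔸.map i₂ (G.ηV P)) : ℤ) = - (D.L.pull (-f)).deg := by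
  set u : CPt C 𝔸.toPtF G.FF := (-f).base G.FF + CPt.cst C G.η with hu
  have hdeg : (D.L.pull u).deg = (D.L.pull (-f)).deg := deg_pull_trans G D.L (-f) G.FF G.η
  let c : CMod.LHom (D.L.pull u) (CMod.one C G.FF) :=
    { f0 := D.can u.u0
      f1 := D.can u.u1
      f01 := D.can u.u01
      comm0 := fun n => D.can_bc (C.J0 G.FF) u.h0 n
      comm1 := fun n => D.can_bc (C.J1 G.FF) u.h1 n }
  have := C.finiteType_B0
  have := C.finiteType_B1
  have := C.finiteType_B01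
  have hX0 : C.j0 C.x ≠ 0 := left_ne_zero_of_mul_eq_one C.xy
  have hY0 : C.j1 C.y ≠ 0 := right_ne_zero_of_mul_eq_one C.xy
  have hinjFF : Function.Injective (IsScalarTower.toAlgHom K C.B01 C.FF) :=
    IsFractionRing.injective C.B01 C.FF
  have hgen0 : 𝔸.map (((IsScalarTower.toAlgHom K C.B01 C.FF).comp C.j0).comp
      (Algebra.TensorProduct.lid K C.B0).toAlgHom) f.u0 = f.gen := by
    unfold CPt.gen
    rw [← f.h0, ← 𝔸.map_comp]
    congr 1
    ext
    simp [Curve.toFF]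
  have hgen1 : 𝔸.map (((IsScalarTower.toAlgHom K C.B01 C.FF).comp C.j1).comp
      (Algebra.TensorProduct.lid K C.B1).toAlgHom) f.u1 = f.gen := by
    unfold CPt.gen
    rw [← f.h1, ← 𝔸.map_comp]
    congr 1
    ext
    simp [Curve.toFF]
  have k0 := Main_chart G P htr D Φ i₁ i₂ hΦ ((IsScalarTower.toAlgHom K C.B01 C.FF).comp C.j0)
    (hinjFF.comp C.j0_inj) (Main_frac C.j0 C.x hX0 C.loc0) f.u0 f.gen hgen0 u.u0 rfl
  have k1 := Main_chart G P htr D Φ i₁ i₂ hΦ ((IsScalarTower.toAlgHom K C.B01 C.FF).comp C.j1)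
    (hinjFF.comp C.j1_inj) (Main_frac C.j1 C.y hY0 C.loc1) f.u1 f.gen hgen1 u.u1 rfl
  have k01 := Main_chart G P htr D Φ i₁ i₂ hΦ
    ((IsScalarTower.toAlgHom K C.B01 C.FF).comp (AlgHom.id K C.B01)) hinjFF
    (Main_frac (AlgHom.id K C.B01) 1 one_ne_zero fun β => ⟨0, β, by simp⟩) f.u01 f.gen rfl u.u01 rfl
  have hc : c.f01 ≠ 0 := by
    intro h0
    have hr : (LinearMap.range (D.can u.u01) : Ideal (C.S01 G.FF)) = ⊥ := by
      rw [show D.can u.u01 = 0 from h0]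
      exact LinearMap.range_zero
    have hdom := C.isDomain_S01 G.FF
    rcases k01.1 with h | h
    · rw [hr] at h
      exact bot_ne_top h
    · rw [hr] at h
      exact Main_bot_not_isMaximal C G.FF h
  have hchi := c.chi_eq hc
  have d0 : dimOver G.FF (C.S0 G.FF) ((CMod.one C G.FF).N0 ⧸ LinearMap.range c.f0)
      = G.deg (𝔸.map i₁ f.gen + 𝔸.map i₂ (G.ηV P)) := k0.2
  have d1 : dimOver G.FF (C.S1 G.FF) ((CMod.one C G.FF).N1 ⧸ LinearMap.range c.f1)
      = G.deg (𝔸.map i₁ f.gen + 𝔸.map i₂ (G.ηV P)) := k1.2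
  have d01 : dimOver G.FF (C.S01 G.FF) ((CMod.one C G.FF).N01 ⧸ LinearMap.range c.f01)
      = G.deg (𝔸.map i₁ f.gen + 𝔸.map i₂ (G.ηV P)) := k01.2
  rw [d0, d1, d01] at hchi
  rw [← hdeg, CMod.deg]
  omega

end Fermat.Agent.S26
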